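import Fermat.Agent.S56.Flat.Dict.LocFlat
import Fermat.Agent.S32.HopfClosureZl
import Fermat.Prelude.Def_GaloisRep_Flat
import Fermat.Prelude.Def_GaloisRep_CompletionBridge

/-!
# PROJECT T (S56), block (a3) `S56/Flat`, dictionary slice `Dict/OfPrelude` (helper16)

From the Prelude's `GaloisRepAdic.IsFlatAt` (an abstract finite flat cocommutative Hopf algebra
over `ℤ_(p)` whose `ℚ̄`-points are `V/IV`, equivariantly for all of `G_ℚ`) to the function-level
language of `S32/HopfClosure`:

* `exists_isHopfOrderZl_of_points` : the image of the abstract Hopf algebra in `T → ℚ̄`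
  (evaluation at the points) is a function-level Hopf order over `ℤ_(p)` for `G_ℚ`.
  No reducedness / Cartier theorem is needed: we never claim that the evaluation is injective.
-/

set_option autoImplicit false
set_option linter.unusedSectionVars false

namespace Fermat.Agent.S56.Flat.Dict

open Fermat.Agent.S32.HopfClosure Fermat.Agent.S32.HopfClosureZl GaloisRep
open scoped TensorProduct

section Global

variable {p : ℕ} {T : Type*} [AddCommGroup T]
  {H : Type*} [CommRing H] [HopfAlgebra (ratLocalizedAt p) H]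

local notation "Rp" => ratLocalizedAt p
local notation "Qb" => AlgebraicClosure ℚ
local notation "GQb" => (AlgebraicClosure ℚ ≃ₐ[ℚ] AlgebraicClosure ℚ)

/-- Evaluation of the abstract Hopf algebra at its points. -/
noncomputable def evalPts (e : WithConv (H →ₐ[Rp] Qb) ≃ T) : H →ₐ[Rp] (T → Qb) :=
  AlgHom.pi (fun t => (e.symm t).ofConv)

@[simp] theorem evalPts_apply (e : WithConv (H →ₐ[Rp] Qb) ≃ T) (h : H) (t : T) :
    evalPts e h t = (e.symm t) h := rfl

/-- The two-variable function attached to a tensor. -/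
noncomputable def tensorFn (e : WithConv (H →ₐ[Rp] Qb) ≃ T) (x : H ⊗[Rp] H) : T → T → Qb :=
  fun s t => Algebra.TensorProduct.lift (e.symm s).ofConv (e.symm t).ofConv
    (fun _ _ => Commute.all _ _) x

theorem isDecomp_tensorFn (e : WithConv (H →ₐ[Rp] Qb) ≃ T) (x : H ⊗[Rp] H) :
    IsDecomp (Subalgebra.toSubmodule (evalPts e).range) (Subalgebra.toSubmodule (evalPts e).range)
      (tensorFn e x) := by
  induction x using TensorProduct.induction_on with
  | zero =>
    exact IsDecomp.zero.congr fun s t => by simp [tensorFn]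
  | tmul a b =>
    have ha : evalPts e a ∈ Subalgebra.toSubmodule (evalPts e).range := ⟨a, rfl⟩
    have hb : evalPts e b ∈ Subalgebra.toSubmodule (evalPts e).range := ⟨b, rfl⟩
    exact (IsDecomp.pure ha hb).congr fun s t => by simp [tensorFn]
  | add x y hx hy =>
    exact (hx.add hy).congr fun s t => by simp [tensorFn]

/-- **Prelude points → function-level Hopf order over `ℤ_(p)`.** -/
theorem exists_isHopfOrderZl_of_points [Module.Finite Rp H]
    (act : GQb → T → T) (e : WithConv (H →ₐ[Rp] Qb) ≃ T)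
    (hadd : ∀ f g : WithConv (H →ₐ[Rp] Qb), e (f * g) = e f + e g)
    (heq : ∀ (σ : GQb) (f g : WithConv (H →ₐ[Rp] Qb)),
      (∀ h : H, g h = σ (f h)) → e g = act σ (e f)) :
    ∃ H₀ : Subalgebra Rp (T → Qb), IsHopfOrderZl p act H₀ := by
  refine ⟨(evalPts e).range, ?_, ?_, ?_, ?_⟩
  · -- fg
    rw [← fg_toSubmodule_iff]
    have : Subalgebra.toSubmodule (evalPts e).range =
        (⊤ : Submodule Rp H).map (evalPts e).toLinearMap := by
      ext φ
      simp [AlgHom.mem_range]
    rw [this]
    exact (Module.Finite.fg_top).map _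
  · -- equivariance
    rintro _ ⟨h, rfl⟩ σ t
    set f : WithConv (H →ₐ[Rp] Qb) := e.symm t with hf
    let σR : Qb →ₐ[Rp] Qb := (σ : Qb →ₐ[ℚ] Qb).restrictScalars Rp
    set g : WithConv (H →ₐ[Rp] Qb) := WithConv.toConv (σR.comp f.ofConv) with hg
    have h1 : e g = act σ (e f) := heq σ f g fun h' => rfl
    have h2 : e.symm (act σ t) = g := by
      rw [Equiv.symm_apply_eq, h1, hf, Equiv.apply_symm_apply]
    change (e.symm (act σ t)) h = kappa σ ((e.symm t) h)
    rw [h2]
    rfl
  · -- separation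
    intro s t hst
    have hne : e.symm s ≠ e.symm t := fun h => hst (e.symm.injective h)
    have : ∃ h : H, (e.symm s) h ≠ (e.symm t) h := by
      by_contra hcon
      exact hne (WithConv.ofConv_injective
        (AlgHom.ext fun h => by_contra fun hh => hcon ⟨h, hh⟩))
    obtain ⟨h, hh⟩ := this
    exact ⟨evalPts e h, ⟨h, rfl⟩, hh⟩
  · -- comultiplication
    rintro _ ⟨h, rfl⟩
    refine (isDecomp_tensorFn e (Coalgebra.comul (R := Rp) h)).congr fun s t => ?_
    have hst : e.symm (s + t) = e.symm s * e.symm t := by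
      rw [Equiv.symm_apply_eq, hadd, Equiv.apply_symm_apply, Equiv.apply_symm_apply]
    change (e.symm (s + t)) h = _
    rw [hst, AlgHom.convMul_apply]
    rfl

end Global

/-! ### From `ℤ_(p)`, `ℚ̄`, `G_ℚ` to `ℤ_p`, `Ω = PadicAlgCl p`, `Gal(Ω/ℚ_p)` -/

section LocalTransfer

open Fermat.Agent.CFT.LocalBridge

variable (p : ℕ) [Fact p.Prime]

local notation "Rp" => ratLocalizedAt p
local notation "Qb" => AlgebraicClosure ℚ
local notation "Om" => PadicAlgCl p
local notation "GQb" => (AlgebraicClosure ℚ ≃ₐ[ℚ] AlgebraicClosure ℚ)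

/-- The inclusion `ℤ_(p) → ℤ_p`. -/
noncomputable def toZp : Rp →+* ℤ_[p] where
  toFun r := ⟨((r : ℚ) : ℚ_[p]), Padic.norm_rat_le_one
    ((Fermat.Agent.S28.ZlBase.mem_iff (ℓ := p)).1 r.2)⟩
  map_one' := by
    apply Subtype.ext
    simp
  map_mul' a b := by
    apply Subtype.ext
    change (((a * b : Rp) : ℚ) : ℚ_[p]) = ((a : ℚ) : ℚ_[p]) * ((b : ℚ) : ℚ_[p])
    push_cast
    rfl
  map_zero' := by
    apply Subtype.ext
    simp
  map_add' a b := by
    apply Subtype.ext
    change (((a + b : Rp) : ℚ) : ℚ_[p]) = ((a : ℚ) : ℚ_[p]) + ((b : ℚ) : ℚ_[p])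
    push_cast
    rfl

@[simp] theorem coe_toZp (r : Rp) : ((toZp p r : ℤ_[p]) : ℚ_[p]) = ((r : ℚ) : ℚ_[p]) := rfl

/-- Post-composition of `ℚ̄`-valued functions with the fixed embedding `ℚ̄ → Ω`. -/
noncomputable def pushFn (T : Type*) : (T → Qb) →+* (T → Om) :=
  RingHom.pi fun t => ((padicEmbedding p : Qb →+* Om)).comp (Pi.evalRingHom (fun _ => Qb) t)

@[simp] theorem pushFn_apply {T : Type*} (φ : T → Qb) (t : T) :
    pushFn p T φ t = padicEmbedding p (φ t) := rfl

theorem padicEmbedding_algebraMap (r : Rp) :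
    padicEmbedding p (algebraMap Rp Qb r) = algebraMap ℤ_[p] Om (toZp p r) := by
  rw [IsScalarTower.algebraMap_apply Rp ℚ Qb, AlgHom.commutes,
    IsScalarTower.algebraMap_apply ℤ_[p] ℚ_[p] Om,
    IsScalarTower.algebraMap_apply ℚ ℚ_[p] Om]
  rfl

theorem pushFn_smul {T : Type*} (r : Rp) (φ : T → Qb) :
    pushFn p T (r • φ) = toZp p r • pushFn p T φ := by
  funext t
  rw [Algebra.smul_def, Algebra.smul_def, pushFn_apply, Pi.mul_apply, Pi.mul_apply,
    Pi.algebraMap_apply, Pi.algebraMap_apply, map_mul, padicEmbedding_algebraMap, pushFn_apply]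

theorem pushFn_comp_algebraMap (T : Type*) :
    (algebraMap ℤ_[p] (T → Om)).comp (toZp p) = (pushFn p T).comp (algebraMap Rp (T → Qb)) := by
  ext r t
  simp only [RingHom.comp_apply, Pi.algebraMap_apply, pushFn_apply, padicEmbedding_algebraMap]

/-- The `ℤ_p`-order generated by the push-forward of a `ℤ_(p)`-order. -/
noncomputable def pushOrder {T : Type*} (H₀ : Subalgebra Rp (T → Qb)) :
    Subalgebra ℤ_[p] (T → Om) :=
  Algebra.adjoin ℤ_[p] (pushFn p T '' (H₀ : Set (T → Qb)))

theorem pushFn_mem_pushOrder {T : Type*} {H₀ : Subalgebra Rp (T → Qb)} {φ : T → Qb}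
    (hφ : φ ∈ H₀) : pushFn p T φ ∈ pushOrder p H₀ :=
  Algebra.subset_adjoin ⟨φ, hφ, rfl⟩

/-- **Global function-level Hopf order → locally flat.** -/
theorem isLocFlat_of_isHopfOrderZl {T : Type*} [AddCommGroup T] (act : GQb → T → T)
    {H₀ : Subalgebra Rp (T → Qb)} (h : IsHopfOrderZl p act H₀) :
    IsLocFlat p (fun τ t => act (localGaloisToGlobal p τ) t) := by
  refine ⟨pushOrder p H₀, ?_, ?_, ?_, ?_⟩
  · -- fg
    obtain ⟨s, hs⟩ := (fg_toSubmodule_iff H₀).2 h.fg
    have hsH : ∀ φ ∈ s, φ ∈ H₀ := fun φ hφ => by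
      have : φ ∈ Submodule.span Rp (s : Set (T → Qb)) := Submodule.subset_span hφ
      rw [hs] at this
      exact this
    have hspan0 : ∀ φ ∈ Submodule.span Rp (s : Set (T → Qb)), pushFn p T φ ∈
        Submodule.span ℤ_[p] (pushFn p T '' (s : Set (T → Qb))) := by
      intro φ hφ'
      induction hφ' using Submodule.span_induction with
      | mem x hx => exact Submodule.subset_span ⟨x, hx, rfl⟩
      | zero => rw [map_zero]; exact Submodule.zero_mem _
      | add x y _ _ hx hy => rw [map_add]; exact Submodule.add_mem _ hx hy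
      | smul r x _ hx => rw [pushFn_smul]; exact Submodule.smul_mem _ _ hx
    have hspan : ∀ φ ∈ H₀, pushFn p T φ ∈
        Submodule.span ℤ_[p] (pushFn p T '' (s : Set (T → Qb))) := by
      intro φ hφ
      refine hspan0 φ ?_
      rw [hs]; exact hφ
    have heq : pushOrder p H₀ = Algebra.adjoin ℤ_[p] (pushFn p T '' (s : Set (T → Qb))) := by
      apply le_antisymm
      · refine Algebra.adjoin_le ?_
        rintro _ ⟨φ, hφ, rfl⟩
        exact Algebra.span_le_adjoin _ _ (hspan φ hφ)
      · refine Algebra.adjoin_mono (Set.image_mono ?_)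
        exact fun φ hφ => hsH φ hφ
    rw [heq]
    refine Algebra.finite_adjoin_of_finite_of_isIntegral (s.finite_toSet.image _) ?_
    rintro _ ⟨φ, hφ, rfl⟩
    have hint : IsIntegral Rp φ := by
      have : Module.Finite Rp H₀ := h.fg
      have h1 : IsIntegral Rp (⟨φ, hsH φ hφ⟩ : H₀) := Algebra.IsIntegral.isIntegral _
      exact h1.map H₀.val
    exact hint.map_of_comp_eq (toZp p) (pushFn p T) (pushFn_comp_algebraMap p T)
  · -- equivariance
    have : pushOrder p H₀ ≤ equivariantSubalgebra (kloc_algebraMap p)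
        (fun τ t => act (localGaloisToGlobal p τ) t) := by
      refine Algebra.adjoin_le ?_
      rintro _ ⟨φ, hφ, rfl⟩ τ t
      change padicEmbedding p (φ (act (localGaloisToGlobal p τ) t)) = τ (padicEmbedding p (φ t))
      rw [h.equiv φ hφ, kappa_apply, padicEmbedding_localGaloisToGlobal]
    exact fun φ hφ => this hφ
  · -- separation
    intro s t hst
    obtain ⟨φ, hφ, hne⟩ := h.sep s t hst
    exact ⟨pushFn p T φ, pushFn_mem_pushOrder p hφ,
      fun heq => hne ((padicEmbedding p).injective heq)⟩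
  · -- comultiplication
    have : pushOrder p H₀ ≤ comulSubalgebra (pushOrder p H₀) := by
      refine Algebra.adjoin_le ?_
      rintro _ ⟨φ, hφ, rfl⟩
      obtain ⟨ι, _, a, b, ha, hb, hab⟩ := h.comul φ hφ
      refine ⟨ι, inferInstance, fun i => pushFn p T (a i), fun i => pushFn p T (b i),
        fun i => pushFn_mem_pushOrder p (ha i), fun i => pushFn_mem_pushOrder p (hb i),
        fun s t => ?_⟩
      simp only [pushFn_apply, hab, map_sum, map_mul]
    exact fun φ hφ => this hφ

end LocalTransfer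

/-! ### The Prelude's `IsFlatAt` gives local flatness of every finite level -/

section Prelude

open Fermat.Agent.CFT.LocalBridge

variable {A : Type} [CommRing A] [IsLocalRing A]

/-- **Dictionary (LE2).**  If `ρ` is flat at `p` in the Prelude's sense, every finite level
`V / I V` with the action of the decomposition group `Gal(Ω/ℚ_p) → G_ℚ` is locally flat. -/
theorem isLocFlat_of_isFlatAt (p : ℕ) [Fact p.Prime] (ρ : GaloisRepAdic A) (h : ρ.IsFlatAt p)
    (I : Ideal A) (hI : Finite (A ⧸ I)) :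
    IsLocFlat p (fun (τ : LocGal p) (t : ρ.V ⧸ (I • (⊤ : Submodule A ρ.V))) =>
      ρ.levelAction I (localGaloisToGlobal p τ) t) := by
  obtain ⟨H, _, _, hfin, -, -, e, hadd, heq⟩ := h.2 I hI
  obtain ⟨H₀, hH₀⟩ := exists_isHopfOrderZl_of_points
    (fun σ t => ρ.levelAction I σ t) e hadd heq
  exact isLocFlat_of_isHopfOrderZl p _ hH₀

end Prelude

end Fermat.Agent.S56.Flat.Dict
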