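import Fermat.Agent.S32.HopfClosure
import Fermat.Agent.CFT.LocalBridge.Krasner

/-!
# PROJECT T (S56), block (a3) `S56/Flat`, dictionary slice `Dict/LocFlat` (helper16)

* Abstract part: the binary product of two function-level Hopf orders
  (`S32/HopfClosure.IsHopfOrder`) is a Hopf order on the product group (`IsHopfOrder.prod`).
* Local frame: `R = ℤ_[p]`, `K = Ω = PadicAlgCl p`, `Γ = LocGal p = Gal(Ω/ℚ_p)`.
  A finite abelian group `T` with an action of `LocGal p` by additive maps is *locally flat*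
  (`IsLocFlat`) if it carries a Hopf order over `ℤ_[p]` inside `T → Ω`.
  Closure of local flatness under subgroups, quotients, binary products and transport along
  equivariant isomorphisms (`IsLocFlat.sub`, `.quot`, `.prod`, `.of_equiv`).
-/

set_option autoImplicit false

namespace Fermat.Agent.S56.Flat.Dict

open Fermat.Agent.S32.HopfClosure Fermat.Agent.CFT.LocalBridge

/-! ### Binary products of Hopf orders -/

section Prod

variable {R K Γ : Type*} [CommRing R] [Field K] [Algebra R K] {κ : Γ → K →+* K}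

/-- The product order on `T₁ × T₂`: generated by the functions `x ↦ φ x.1` (`φ ∈ H₁`) and
`x ↦ ψ x.2` (`ψ ∈ H₂`). -/
def prodOrder {T₁ T₂ : Type*} (H₁ : Subalgebra R (T₁ → K)) (H₂ : Subalgebra R (T₂ → K)) :
    Subalgebra R (T₁ × T₂ → K) :=
  H₁.map (pullback R (Prod.fst : T₁ × T₂ → T₁)) ⊔ H₂.map (pullback R (Prod.snd : T₁ × T₂ → T₂))

theorem map_fst_le_prodOrder {T₁ T₂ : Type*} (H₁ : Subalgebra R (T₁ → K))
    (H₂ : Subalgebra R (T₂ → K)) :
    H₁.map (pullback R (Prod.fst : T₁ × T₂ → T₁)) ≤ prodOrder H₁ H₂ := le_sup_left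

theorem map_snd_le_prodOrder {T₁ T₂ : Type*} (H₁ : Subalgebra R (T₁ → K))
    (H₂ : Subalgebra R (T₂ → K)) :
    H₂.map (pullback R (Prod.snd : T₁ × T₂ → T₂)) ≤ prodOrder H₁ H₂ := le_sup_right

/-- Binary products of Hopf orders. -/
theorem IsHopfOrder.prod (hκ : ∀ σ (r : R), κ σ (algebraMap R K r) = algebraMap R K r)
    {T₁ T₂ : Type*} [AddCommGroup T₁] [AddCommGroup T₂]
    {act₁ : Γ → T₁ → T₁} {act₂ : Γ → T₂ → T₂}
    {H₁ : Subalgebra R (T₁ → K)} {H₂ : Subalgebra R (T₂ → K)}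
    (h₁ : IsHopfOrder κ act₁ H₁) (h₂ : IsHopfOrder κ act₂ H₂) :
    IsHopfOrder κ (fun σ (x : T₁ × T₂) => (act₁ σ x.1, act₂ σ x.2)) (prodOrder H₁ H₂) where
  fg := by
    have i₁ : Module.Finite R ↥(H₁.map (pullback R (Prod.fst : T₁ × T₂ → T₁))) := by
      rw [← fg_toSubmodule_iff, Subalgebra.map_toSubmodule]
      exact ((fg_toSubmodule_iff H₁).2 h₁.fg).map _
    have i₂ : Module.Finite R ↥(H₂.map (pullback R (Prod.snd : T₁ × T₂ → T₂))) := by
      rw [← fg_toSubmodule_iff, Subalgebra.map_toSubmodule]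
      exact ((fg_toSubmodule_iff H₂).2 h₂.fg).map _
    exact Subalgebra.finite_sup _ _
  equiv := by
    have : prodOrder H₁ H₂ ≤
        equivariantSubalgebra hκ (fun σ (x : T₁ × T₂) => (act₁ σ x.1, act₂ σ x.2)) := by
      refine sup_le ?_ ?_
      · rintro _ ⟨φ, hφ, rfl⟩ σ x
        exact h₁.equiv φ hφ σ x.1
      · rintro _ ⟨φ, hφ, rfl⟩ σ x
        exact h₂.equiv φ hφ σ x.2
    exact fun φ hφ => this hφ
  sep := by
    intro x y hxy
    by_cases h : x.1 = y.1
    · have h2 : x.2 ≠ y.2 := fun h' => hxy (Prod.ext h h')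
      obtain ⟨φ, hφ, hne⟩ := h₂.sep _ _ h2
      exact ⟨_, map_snd_le_prodOrder H₁ H₂ ⟨φ, hφ, rfl⟩, hne⟩
    · obtain ⟨φ, hφ, hne⟩ := h₁.sep _ _ h
      exact ⟨_, map_fst_le_prodOrder H₁ H₂ ⟨φ, hφ, rfl⟩, hne⟩
  comul := by
    have : prodOrder H₁ H₂ ≤ comulSubalgebra (prodOrder H₁ H₂) := by
      refine sup_le ?_ ?_
      · rintro _ ⟨φ, hφ, rfl⟩
        have h := (h₁.comul φ hφ).comp (Prod.fst : T₁ × T₂ → T₁) (Prod.fst : T₁ × T₂ → T₁)
        rw [← Subalgebra.map_toSubmodule] at h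
        exact (h.mono (map_fst_le_prodOrder H₁ H₂) (map_fst_le_prodOrder H₁ H₂)).congr
          fun s t => by simp
      · rintro _ ⟨φ, hφ, rfl⟩
        have h := (h₂.comul φ hφ).comp (Prod.snd : T₁ × T₂ → T₂) (Prod.snd : T₁ × T₂ → T₂)
        rw [← Subalgebra.map_toSubmodule] at h
        exact (h.mono (map_snd_le_prodOrder H₁ H₂) (map_snd_le_prodOrder H₁ H₂)).congr
          fun s t => by simp
    exact fun φ hφ => this hφ

end Prod

/-! ### The local frame `R = ℤ_[p]`, `K = Ω = PadicAlgCl p`, `Γ = Gal(Ω/ℚ_p)` -/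

section Local

variable (p : ℕ) [Fact p.Prime]

/-- The local Galois action on `Ω = PadicAlgCl p` as a family of ring endomorphisms. -/
noncomputable def kloc : LocGal p → PadicAlgCl p →+* PadicAlgCl p :=
  fun τ => (τ : PadicAlgCl p →+* PadicAlgCl p)

@[simp] theorem kloc_apply (τ : LocGal p) (x : PadicAlgCl p) : kloc p τ x = τ x := rfl

theorem kloc_algebraMap (τ : LocGal p) (r : ℤ_[p]) :
    kloc p τ (algebraMap ℤ_[p] (PadicAlgCl p) r) = algebraMap ℤ_[p] (PadicAlgCl p) r := by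
  rw [IsScalarTower.algebraMap_apply ℤ_[p] ℚ_[p] (PadicAlgCl p)]
  exact τ.commutes _

/-- The fixed field of `Gal(Ω/ℚ_p)` on `Ω` is `ℚ_p`. -/
theorem kloc_fix (x : PadicAlgCl p) (h : ∀ τ, kloc p τ x = x) :
    x ∈ Set.range (algebraMap ℚ_[p] (PadicAlgCl p)) :=
  (InfiniteGalois.mem_range_algebraMap_iff_fixed x).2 h

/-- A finite abelian group `T` with an action of `LocGal p` is *locally flat* if it carries a
function-level Hopf order over `ℤ_[p]` with values in `Ω`: the points of a finite flat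
commutative group scheme over `ℤ_p`, with their Galois action. -/
def IsLocFlat {T : Type*} [AddCommGroup T] (act : LocGal p → T → T) : Prop :=
  ∃ H : Subalgebra ℤ_[p] (T → PadicAlgCl p), IsHopfOrder (kloc p) act H

variable {p}

/-- Subgroups, and transport along injective equivariant additive maps. -/
theorem IsLocFlat.sub {T T' : Type*} [AddCommGroup T] [AddCommGroup T']
    {act : LocGal p → T → T} {act' : LocGal p → T' → T'} (h : IsLocFlat p act)
    (g : T' →+ T) (hg : Function.Injective g) (hgact : ∀ τ t', g (act' τ t') = act τ (g t')) :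
    IsLocFlat p act' := by
  obtain ⟨H, hH⟩ := h
  exact ⟨_, IsHopfOrder.map_pullback hH g hg hgact⟩

/-- Transport along an equivariant additive isomorphism. -/
theorem IsLocFlat.of_equiv {T T' : Type*} [AddCommGroup T] [AddCommGroup T']
    {act : LocGal p → T → T} {act' : LocGal p → T' → T'} (h : IsLocFlat p act)
    (e : T' ≃+ T) (he : ∀ τ t', e (act' τ t') = act τ (e t')) : IsLocFlat p act' :=
  h.sub e.toAddMonoidHom e.injective he

/-- Binary products. -/
theorem IsLocFlat.prod {T₁ T₂ : Type*} [AddCommGroup T₁] [AddCommGroup T₂]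
    {act₁ : LocGal p → T₁ → T₁} {act₂ : LocGal p → T₂ → T₂} (h₁ : IsLocFlat p act₁)
    (h₂ : IsLocFlat p act₂) :
    IsLocFlat p (fun τ (x : T₁ × T₂) => (act₁ τ x.1, act₂ τ x.2)) := by
  obtain ⟨H₁, hH₁⟩ := h₁
  obtain ⟨H₂, hH₂⟩ := h₂
  exact ⟨_, IsHopfOrder.prod (kloc_algebraMap p) hH₁ hH₂⟩

/-- Finite powers. -/
theorem IsLocFlat.pi {ι : Type*} [Finite ι] {T : Type*} [AddCommGroup T]
    {act : LocGal p → T → T} (h : IsLocFlat p act) :
    IsLocFlat p (fun τ (x : ι → T) i => act τ (x i)) := by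
  obtain ⟨H, hH⟩ := h
  exact ⟨_, IsHopfOrder.pi (kloc_algebraMap p) hH⟩

/-- Quotients by surjective equivariant additive maps. -/
theorem IsLocFlat.quot {T T'' : Type*} [AddCommGroup T] [AddCommGroup T''] [Finite T]
    {act : LocGal p → T → T} {act'' : LocGal p → T'' → T''} (h : IsLocFlat p act)
    (hact : ∀ τ, Function.Surjective (act τ)) (hact''0 : ∀ τ, act'' τ 0 = 0)
    (q : T →+ T'') (hq : Function.Surjective q) (hqact : ∀ τ t, q (act τ t) = act'' τ (q t)) :
    IsLocFlat p act'' := by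
  obtain ⟨H, hH⟩ := h
  exact ⟨_, IsHopfOrder.comap_pullback (F := ℚ_[p]) (kloc_fix p) hH hact hact''0 q hq hqact⟩

end Local

end Fermat.Agent.S56.Flat.Dict
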